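import Fermat.Agent.MarkovShift.Determined
import Fermat.Agent.Ornstein.Main
import Fermat.Agent.VariationalPrinciple.Basic

/-!
# Mixing Markov shifts are Bernoulli

A mixing Markov shift of entropy zero has one letter; one of positive entropy is finitely
determined, so it is isomorphic to every finitely determined process of its entropy.
-/

set_option autoImplicit false

noncomputable section

open MeasureTheory Filter Topology Real
open FA.KolmogorovSinai (shift entropy rate ksEntropy)
open FA.Ornstein

namespace FA.MarkovShift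

variable {A : Type*} [Fintype A] [MeasurableSpace A] [MeasurableSingletonClass A]

/-- The entropy of a shift is the rate of the letter at `0`. -/
theorem ksEntropy_shift (μ : Measure (ℤ → A)) [IsProbabilityMeasure μ]
    (hμ : MeasurePreserving (shift A) μ μ) :
    ksEntropy μ (shift A) = ENNReal.ofReal (rate μ (shift A) fun x => x 0) := by
  have hP : Measurable fun x : ℤ → A => x 0 := measurable_pi_apply 0
  refine FA.KolmogorovSinai.ksEntropy_eq_rate_symm (shift A) hμ hP ?_
  refine le_antisymm (sup_le (iSup_le fun n => ?_) (iSup_le fun n => ?_)) (iSup_le fun i => ?_)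
  · exact (hP.comp ((shift A).measurable.iterate n)).comap_le
  · exact (hP.comp ((shift A).symm.measurable.iterate n)).comap_le
  obtain ⟨j, rfl | rfl⟩ := i.eq_nat_or_neg
  · refine le_sup_of_le_left (le_iSup_of_le j (le_of_eq ?_))
    congr 1
    funext x
    simp only [Function.comp_apply, FA.KolmogorovSinai.shift_iterate]
    exact congrArg x (zero_add _).symm
  · refine le_sup_of_le_right (le_iSup_of_le j (le_of_eq ?_))
    congr 1
    funext x
    simp only [Function.comp_apply, FA.KolmogorovSinai.shift_symm_iterate]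
    exact congrArg x (zero_sub _).symm

/-- The entropy rate is at most the logarithm of the number of letters. -/
theorem rate_le_log_card (μ : Measure (ℤ → A)) [IsProbabilityMeasure μ]
    (hμ : MeasurePreserving (shift A) μ μ) :
    rate μ (shift A) (fun x => x 0) ≤ log (Fintype.card A) := by
  refine (rate_le_entropy_div μ hμ one_ne_zero).trans ?_
  rw [Nat.cast_one, div_one]
  exact (FA.VariationalPrinciple.entropy_le_log_card (measurable_blk 1)).trans_eq
    (by rw [Fintype.card_fun, Fintype.card_fin, pow_one])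

/-- Every entropy up to `log (card A)` is the entropy of a law on `A`. -/
theorem exists_law [Nonempty A] {e : ℝ} (he : 0 ≤ e) (he' : e ≤ log (Fintype.card A)) :
    ∃ q : Measure A, IsProbabilityMeasure q ∧ ∑ a, negMulLog (q.real {a}) = e := by
  classical
  obtain ⟨a₀⟩ := ‹Nonempty A›
  set K : ℝ := (Fintype.card A : ℝ)
  have hK : (0 : ℝ) < K := Nat.cast_pos.2 Fintype.card_pos
  set v : ℝ → A → ℝ := fun t a => (1 - t) * (if a = a₀ then 1 else 0) + t / K
  set H : ℝ → ℝ := fun t => ∑ a, negMulLog (v t a)
  have hc : ContinuousOn H (Set.Icc 0 1) := by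
    refine Continuous.continuousOn ?_
    fun_prop
  have h0 : H 0 = 0 := by
    refine Finset.sum_eq_zero fun a _ => ?_
    simp only [v]
    split_ifs <;> simp
  have h1 : H 1 = log K := by
    simp only [H, v, sub_self, zero_mul, zero_add, Finset.sum_const, Finset.card_univ, nsmul_eq_mul,
      negMulLog, one_div, log_inv]
    show K * (-K⁻¹ * -log K) = log K
    field_simp
  obtain ⟨t, ⟨ht0, ht1⟩, ht⟩ := intermediate_value_Icc zero_le_one hc
    (show e ∈ Set.Icc (H 0) (H 1) by rw [h0, h1]; exact ⟨he, he'⟩)
  have hv : ∀ a, 0 ≤ v t a := fun a => add_nonneg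
    (mul_nonneg (sub_nonneg.2 ht1) (by split_ifs <;> norm_num)) (div_nonneg ht0 hK.le)
  have hsum : ∑ a, v t a = 1 := by
    simp only [v, Finset.sum_add_distrib, ← Finset.mul_sum, Finset.sum_ite_eq', Finset.mem_univ,
      if_true, Finset.sum_const, Finset.card_univ, nsmul_eq_mul]
    show (1 - t) * 1 + K * (t / K) = 1
    field_simp
    ring
  refine ⟨∑ a, ENNReal.ofReal (v t a) • Measure.dirac a, ⟨?_⟩, ?_⟩
  · simp only [Measure.coe_finsetSum, Finset.sum_apply, Measure.smul_apply, measure_univ,
      smul_eq_mul, mul_one, ← ENNReal.ofReal_sum_of_nonneg fun a _ => hv a, hsum,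
      ENNReal.ofReal_one]
  · rw [← ht]
    refine Finset.sum_congr rfl fun b _ => congrArg negMulLog ?_
    simp [measureReal_def, Set.indicator_apply, hv b]

variable [DecidableEq A] {P : Matrix A A ℝ} {p : A → ℝ} {μ : Measure (ℤ → A)}

omit [MeasurableSpace A] [MeasurableSingletonClass A] in
/-- Rows of entropy zero give a map of the letters; a positive power then leaves one letter. -/
theorem subsingleton_of_zero (h : IsChain P p) {N : ℕ} (hN : ∀ a b, 0 < (P ^ N) a b)
    (h0 : ∑ a, p a * ∑ b, negMulLog (P a b) = 0) : Subsingleton A := by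
  have hle : ∀ a b, P a b ≤ 1 := fun a b =>
    (Finset.single_le_sum (fun c _ => h.nonneg a c) (Finset.mem_univ b)).trans_eq (h.sum_row a)
  have hnn : ∀ a, 0 ≤ ∑ b, negMulLog (P a b) := fun a =>
    Finset.sum_nonneg fun b _ => negMulLog_nonneg (h.nonneg a b) (hle a b)
  have h01 : ∀ a b, P a b = 0 ∨ P a b = 1 := fun a b => by
    have ha := (Finset.sum_eq_zero_iff_of_nonneg fun c _ =>
      mul_nonneg (h.nonneg_vec c) (hnn c)).1 h0 a (Finset.mem_univ a)
    have hb := (Finset.sum_eq_zero_iff_of_nonneg fun c _ =>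
      negMulLog_nonneg (h.nonneg a c) (hle a c)).1
      ((mul_eq_zero.1 ha).resolve_left (h.vec_pos hN a).ne') b (Finset.mem_univ b)
    rw [negMulLog] at hb
    rcases mul_eq_zero.1 hb with h' | h'
    · exact Or.inl (neg_eq_zero.1 h')
    · rcases log_eq_zero.1 h' with h'' | h'' | h''
      · exact Or.inl h''
      · exact Or.inr h''
      · linarith [h.nonneg a b]
  have hex : ∀ a, ∃ b, P a b = 1 := fun a => by
    obtain ⟨b, -, hb⟩ := Finset.exists_ne_zero_of_sum_ne_zero ((h.sum_row a).trans_ne one_ne_zero)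
    exact ⟨b, (h01 a b).resolve_left hb⟩
  choose f hf using hex
  have hP : ∀ a b, P a b = if f a = b then 1 else 0 := fun a b => by
    split_ifs with hb
    · exact hb ▸ hf a
    refine (h01 a b).resolve_right fun h1 => ?_
    have h2 := Finset.sum_le_univ_sum_of_nonneg (s := {f a, b}) (f := P a) (h.nonneg a)
    rw [Finset.sum_pair hb, hf a, h1, h.sum_row a] at h2
    norm_num at h2
  have hpow : ∀ (t : ℕ) a b, (P ^ t) a b = if f^[t] a = b then 1 else 0 := fun t => by
    induction t with
    | zero =>
      intro a b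
      simp only [pow_zero, Function.iterate_zero, id, Matrix.one_apply]
      congr!
    | succ t ih =>
      intro a b
      rw [pow_succ, Matrix.mul_apply, Function.iterate_succ_apply']
      simp only [ih, hP, ite_mul, one_mul, zero_mul, Finset.sum_ite_eq, Finset.mem_univ, if_true]
  refine ⟨fun a b => ?_⟩
  have e : ∀ c, f^[N] a = c := fun c => by
    by_contra hc
    have := hN a c
    rw [hpow, if_neg hc] at this
    exact lt_irrefl _ this
  exact (e a).symm.trans (e b)

/-- **A mixing Markov shift of zero entropy** is a point. -/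
theorem IsMarkov.eq_dirac (hM : IsMarkov P p μ) (h : IsChain P p) {N : ℕ}
    (hN : ∀ a b, 0 < (P ^ N) a b) (h0 : rate μ (shift A) (fun x => x 0) = 0) :
    ∃ a, μ = bern (Measure.dirac a) := by
  have := hM.isProb
  rw [hM.rate_eq h] at h0
  have := subsingleton_of_zero h hN h0
  obtain ⟨a⟩ := h.nonempty
  refine ⟨a, Measure.ext fun E _ => ?_⟩
  have : IsProbabilityMeasure (bern (Measure.dirac a)) := by
    rw [bern_dirac]
    infer_instance
  rcases Subsingleton.set_cases (p := fun E : Set (ℤ → A) => μ E = bern (Measure.dirac a) E)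
    (by simp) (by simp) E with h'
  exact h'

variable {B : Type*} [Fintype B] [MeasurableSpace B] [MeasurableSingletonClass B]

/-- **Isomorphism with a finitely determined process of the same entropy.** -/
theorem IsMarkov.exists_iso (hM : IsMarkov P p μ) (h : IsChain P p) {N : ℕ}
    (hN : ∀ a b, 0 < (P ^ N) a b) {ν : Measure (ℤ → B)} [IsProbabilityMeasure ν]
    (hν : Ergodic (shift B) ν) (hν' : FiniteDet ν)
    (hν0 : rate ν (shift B) (fun y => y 0) = 0 → ∃ b, ν = bern (Measure.dirac b))
    (he : rate μ (shift A) (fun x => x 0) = rate ν (shift B) fun y => y 0) :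
    ∃ (φ : (ℤ → A) → B) (ψ : (ℤ → B) → A), Measurable φ ∧ Measurable ψ ∧
      μ.map (code φ) = ν ∧ ν.map (code ψ) = μ ∧
      (∀ᵐ x ∂μ, code ψ (code φ x) = x) ∧ ∀ᵐ y ∂ν, code φ (code ψ y) = y := by
  classical
  have := hM.isProb
  rcases (FA.KolmogorovSinai.rate_nonneg hM.mp (measurable_pi_apply 0)).eq_or_lt with h0 | hpos
  · obtain ⟨a, ha⟩ := hM.eq_dirac h hN h0.symm
    obtain ⟨b, hb⟩ := hν0 (he ▸ h0.symm)
    subst ha hb
    refine exists_iso_codes (Measure.dirac a) (Measure.dirac b) ?_
    simp [measureReal_def, Set.indicator_apply, apply_ite]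
  · exact exists_iso_finiteDet (hM.ergodic h hN) (hM.finiteDet h hN) hν hν' hpos he

/-- **The theorem of Friedman and Ornstein**, by codes. -/
theorem IsMarkov.exists_iso_bern (hM : IsMarkov P p μ) (h : IsChain P p) {N : ℕ}
    (hN : ∀ a b, 0 < (P ^ N) a b) (q : Measure B) [IsProbabilityMeasure q]
    (he : ∑ b, negMulLog (q.real {b}) = ∑ a, p a * ∑ b, negMulLog (P a b)) :
    ∃ (φ : (ℤ → A) → B) (ψ : (ℤ → B) → A), Measurable φ ∧ Measurable ψ ∧
      μ.map (code φ) = bern q ∧ (bern q).map (code ψ) = μ ∧
      (∀ᵐ x ∂μ, code ψ (code φ x) = x) ∧ ∀ᵐ y ∂bern q, code φ (code ψ y) = y :=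
  hM.exists_iso h hN (ergodic_bern q) (finiteDet_bern q)
    (fun h0 => by
      rw [rate_bern] at h0
      obtain ⟨b, rfl⟩ := exists_dirac h0.le
      exact ⟨b, rfl⟩)
    (by rw [hM.rate_eq h, rate_bern, he])

end FA.MarkovShift

end
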