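import Fermat.Agent.Ornstein.Space

/-!
# Measures with given blocks

Consistent laws of blocks come from an invariant measure; sums over blocks that look at a part of
the block reduce to that part.
-/

set_option autoImplicit false

noncomputable section

open MeasureTheory Filter Topology
open FA.KolmogorovSinai (shift entropy rate)

namespace FA.Ornstein

variable {A : Type*} [Fintype A] [MeasurableSpace A] [MeasurableSingletonClass A]

omit [Fintype A] [MeasurableSingletonClass A] in
theorem measureReal_tr {μ : Measure (ℤ → A)} (h : MeasurePreserving (shift A) μ μ) (k : ℤ)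
    {E : Set (ℤ → A)} (hE : MeasurableSet E) : μ.real (tr k ⁻¹' E) = μ.real E := by
  rw [measureReal_def, (mp_tr h k).measure_preimage hE.nullMeasurableSet, measureReal_def]

/-- A sum over blocks of a function of a part of the block. -/
theorem sum_blk_sub {μ : Measure (ℤ → A)} [IsProbabilityMeasure μ]
    (h : MeasurePreserving (shift A) μ μ) {n k : ℕ} (s : ℕ) (hs : s + k ≤ n)
    (F : (Fin k → A) → ℝ) :
    ∑ u : Fin n → A, μ.real (blk n ⁻¹' {u}) * F (fun j => u ⟨s + (j : ℕ), by omega⟩) =
      ∑ t, μ.real (blk k ⁻¹' {t}) * F t := by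
  classical
  rw [← Finset.sum_fiberwise Finset.univ
    (fun (u : Fin n → A) (j : Fin k) => u ⟨s + (j : ℕ), by omega⟩)]
  refine Finset.sum_congr rfl fun t _ => ?_
  rw [Finset.sum_congr rfl fun u hu => by rw [(Finset.mem_filter.1 hu).2], ← Finset.sum_mul,
    sum_measureReal_preimage_singleton _ fun u _ => measurable_blk n (measurableSet_singleton u)]
  congr 1
  rw [← measureReal_tr h (s : ℤ) (measurable_blk k (measurableSet_singleton t))]
  congr 1
  ext x
  simp only [Finset.coe_filter, Finset.mem_univ, true_and, Set.mem_preimage, Set.mem_ofPred_eq,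
    Set.mem_singleton_iff, funext_iff, blk, tr]
  refine forall_congr' fun j => ?_
  rw [Nat.cast_add, add_comm]

omit [MeasurableSpace A] [MeasurableSingletonClass A] in
/-- Consistent laws of blocks sum to the law of any part. -/
theorem sum_part [DecidableEq A] {p : ∀ n, (Fin n → A) → ℝ}
    (hr : ∀ n w, ∑ b, p (n + 1) (Fin.snoc w b) = p n w)
    (hl : ∀ n w, ∑ b, p (n + 1) (Fin.cons b w) = p n w) (k : ℕ) (v : Fin k → A) :
    ∀ (n s : ℕ) (hs : s + k ≤ n),
      (∑ u : Fin n → A, if (fun j : Fin k => u ⟨s + (j : ℕ), by omega⟩) = v then p n u else 0) =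
        p k v := by
  intro n
  induction n with
  | zero =>
    intro s hs
    obtain ⟨rfl, rfl⟩ : s = 0 ∧ k = 0 := by omega
    rw [Fintype.sum_unique, if_pos (funext fun j => j.elim0)]
    congr 1
    exact funext fun j => j.elim0
  | succ n ih =>
    intro s hs
    rcases Nat.eq_zero_or_pos s with rfl | hspos
    · rcases Nat.lt_or_ge k (n + 1) with hk | hk
      · rw [← (Fin.snocEquiv fun _ => A).sum_comp, Fintype.sum_prod_type_right,
          ← ih 0 (by omega)]
        refine Finset.sum_congr rfl fun w _ => ?_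
        simp only [Fin.snocEquiv, Equiv.coe_fn_mk]
        have e : ∀ b, (fun j : Fin k => (Fin.snoc w b : Fin (n + 1) → A) ⟨0 + (j : ℕ), by omega⟩) =
            fun j : Fin k => w ⟨0 + (j : ℕ), by omega⟩ := fun b => by
          funext j
          rw [show (⟨0 + (j : ℕ), by omega⟩ : Fin (n + 1)) =
            Fin.castSucc ⟨0 + (j : ℕ), by omega⟩ from rfl, Fin.snoc_castSucc]
        simp only [e]
        split_ifs
        · exact hr n w
        · simp
      · obtain rfl : k = n + 1 := by omega
        rw [Finset.sum_eq_single v]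
        · simp
        · intro u _ hu
          rw [if_neg fun he => hu (by rw [← he]; funext j; simp)]
        · simp
    · rw [← (Fin.consEquiv fun _ => A).sum_comp, Fintype.sum_prod_type_right,
        ← ih (s - 1) (by omega)]
      refine Finset.sum_congr rfl fun w _ => ?_
      simp only [Fin.consEquiv, Equiv.coe_fn_mk]
      have e : ∀ b, (fun j : Fin k => (Fin.cons b w : Fin (n + 1) → A) ⟨s + (j : ℕ), by omega⟩) =
          fun j : Fin k => w ⟨s - 1 + (j : ℕ), by omega⟩ := fun b => by
        funext j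
        rw [show (⟨s + (j : ℕ), by omega⟩ : Fin (n + 1)) = Fin.succ ⟨s - 1 + (j : ℕ), by omega⟩ from
          Fin.ext (by simp; omega), Fin.cons_succ]
      simp only [e]
      split_ifs
      · exact hl n w
      · simp

/-- **Consistent laws of blocks come from an invariant measure.** -/
theorem exists_of_blocks [Nonempty A] (p : ∀ n, (Fin n → A) → ℝ) (hp : ∀ n w, 0 ≤ p n w)
    (h0 : ∀ w, p 0 w = 1) (hr : ∀ n w, ∑ b, p (n + 1) (Fin.snoc w b) = p n w)
    (hl : ∀ n w, ∑ b, p (n + 1) (Fin.cons b w) = p n w) :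
    ∃ μ : Measure (ℤ → A), IsProbabilityMeasure μ ∧ MeasurePreserving (shift A) μ μ ∧
      ∀ n w, μ.real (blk n ⁻¹' {w}) = p n w := by
  classical
  let : TopologicalSpace A := ⊥
  have : DiscreteTopology A := ⟨rfl⟩
  have hsum : ∀ n, ∑ w, p n w = 1 := fun n => by
    induction n with
    | zero => simp [h0]
    | succ n ih =>
      rw [← (Fin.snocEquiv fun _ => A).sum_comp, Fintype.sum_prod_type_right]
      simpa [Fin.snocEquiv, hr] using ih
  let ext0 : ∀ n : ℕ, (Fin (2 * n + 1) → A) → ℤ → A := fun n w i =>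
    if h : 0 ≤ i + n ∧ i + n < (2 * n + 1 : ℕ) then w ⟨(i + n).toNat, by omega⟩
    else Classical.arbitrary A
  let m : ℕ → Measure (ℤ → A) := fun n =>
    ∑ w : Fin (2 * n + 1) → A, ENNReal.ofReal (p (2 * n + 1) w) • Measure.dirac (ext0 n w)
  have hm : ∀ n, IsProbabilityMeasure (m n) := fun n => ⟨by
    simp only [m, Measure.coe_finsetSum, Finset.sum_apply, Measure.smul_apply, measure_univ,
      smul_eq_mul, mul_one, ← ENNReal.ofReal_sum_of_nonneg fun w _ => hp (2 * n + 1) w, hsum,
      ENNReal.ofReal_one]⟩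
  have hval : ∀ (n k : ℕ) (i : ℤ) (v : Fin k → A), 0 ≤ i + n → i + n + k ≤ (2 * n + 1 : ℕ) →
      (m n).real (tr i ⁻¹' (blk k ⁻¹' {v})) = p k v := fun n k i v h1 h2 => by
    have hE : MeasurableSet (tr i ⁻¹' (blk k ⁻¹' {v}) : Set (ℤ → A)) :=
      measurable_tr i (measurable_blk k (measurableSet_singleton v))
    rw [← sum_part hr hl k v (2 * n + 1) (i + n).toNat (by omega), measureReal_def]
    simp only [m, Measure.coe_finsetSum, Finset.sum_apply, Measure.smul_apply, smul_eq_mul,
      Measure.dirac_apply' _ hE]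
    rw [ENNReal.toReal_sum fun w _ => ?_]
    · refine Finset.sum_congr rfl fun w _ => ?_
      have e : ext0 n w ∈ tr i ⁻¹' (blk k ⁻¹' {v}) ↔
          (fun j : Fin k => w ⟨(i + n).toNat + (j : ℕ), by omega⟩) = v := by
        simp only [Set.mem_preimage, Set.mem_singleton_iff]
        refine iff_of_eq (congrArg (· = v) (funext fun j => ?_))
        simp only [blk, tr, ext0]
        rw [dif_pos (by omega)]
        congr 2
        omega
      by_cases hw : ext0 n w ∈ tr i ⁻¹' (blk k ⁻¹' {v})
      · rw [Set.indicator_of_mem hw, Pi.one_apply, mul_one, ENNReal.toReal_ofReal (hp _ _),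
          if_pos (e.1 hw)]
      · rw [Set.indicator_of_notMem hw, mul_zero, ENNReal.toReal_zero, if_neg (hw ∘ e.2)]
    · by_cases hw : ext0 n w ∈ tr i ⁻¹' (blk k ⁻¹' {v})
      · simp [Set.indicator_of_mem hw]
      · simp [Set.indicator_of_notMem hw]
  set u : ℕ → ProbabilityMeasure (ℤ → A) := fun n => ⟨m n, hm n⟩
  obtain ⟨μ, hμ⟩ := exists_clusterPt_of_compactSpace (map u atTop)
  have hfin : ∀ (k : ℕ) (i : ℤ) (v : Fin k → A),
      (μ : Measure (ℤ → A)).real (tr i ⁻¹' (blk k ⁻¹' {v})) = p k v := fun k i v => by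
    refine IsClosed.mem_of_mapClusterPt (s := {M : ProbabilityMeasure (ℤ → A) |
      (M : Measure (ℤ → A)).real (tr i ⁻¹' (blk k ⁻¹' {v})) = p k v}) (isClosed_eq
        (continuous_eval (((isClopen_discrete {v}).preimage
          (continuous_pi fun _ => continuous_apply _)).preimage (continuous_tr i)))
        continuous_const) hμ ((eventually_ge_atTop (i.natAbs + k)).mono fun n hn =>
          hval n k i v (by omega) (by omega))
  have hblk : ∀ n w, (μ : Measure (ℤ → A)).real (blk n ⁻¹' {w}) = p n w := fun n w => by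
    have := hfin n 0 w
    rwa [show tr (0 : ℤ) = (id : (ℤ → A) → ℤ → A) from funext tr_zero, Set.preimage_id] at this
  refine ⟨μ, inferInstance, ⟨(shift A).measurable, ?_⟩, hblk⟩
  have := Measure.isProbabilityMeasure_map (μ := (μ : Measure (ℤ → A)))
    (shift A).measurable.aemeasurable
  refine ext_of_win fun r w => ?_
  rw [map_measureReal_apply (shift A).measurable (measurable_win r (measurableSet_singleton w))]
  have e1 : shift A ⁻¹' (win r ⁻¹' {w}) = tr (-(r : ℤ) + 1) ⁻¹' (blk (2 * r + 1) ⁻¹' {w}) := by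
    ext x
    simp [win_eq_blk, shift_apply, tr_tr]
  have e2 : (win r ⁻¹' {w} : Set (ℤ → A)) = tr (-(r : ℤ)) ⁻¹' (blk (2 * r + 1) ⁻¹' {w}) := by
    ext x
    simp [win_eq_blk]
  rw [e1, e2, hfin, hfin]

end FA.Ornstein

end
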