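import Mathlib.Data.Matrix.Mul
import Mathlib.LinearAlgebra.Matrix.Notation
import Mathlib.Analysis.SpecificLimits.Basic

/-!
# Two chains that meet

Two independent chains run until they meet; `apart t a a'` is the chance that they are still apart
after `t` steps. If some power of the matrix is positive it tends to zero, so the powers tend to
the stationary vector, and the sum over the first `N` steps is a drift function.
-/

set_option autoImplicit false

noncomputable section

open Filter Topology

namespace FA.MarkovShift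

variable {A : Type*} [Fintype A] [DecidableEq A]

/-- A stochastic matrix with a stationary vector. -/
structure IsChain (P : Matrix A A ℝ) (p : A → ℝ) : Prop where
  nonneg : ∀ a b, 0 ≤ P a b
  sum_row : ∀ a, ∑ b, P a b = 1
  nonneg_vec : ∀ a, 0 ≤ p a
  sum_vec : ∑ a, p a = 1
  stationary : ∀ b, ∑ a, p a * P a b = p b

variable {P : Matrix A A ℝ} {p : A → ℝ} (h : IsChain P p)

include h

theorem IsChain.pow_nonneg (t : ℕ) (a b : A) : 0 ≤ (P ^ t) a b := by
  induction t generalizing b with
  | zero => simp [Matrix.one_apply]; split_ifs <;> simp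
  | succ t ih =>
    rw [pow_succ, Matrix.mul_apply]
    exact Finset.sum_nonneg fun c _ => mul_nonneg (ih c) (h.nonneg c b)

theorem IsChain.stationary_pow (t : ℕ) (b : A) : ∑ a, p a * (P ^ t) a b = p b := by
  induction t generalizing b with
  | zero => simp [Matrix.one_apply]
  | succ t ih =>
    simp only [pow_succ, Matrix.mul_apply, Finset.mul_sum, ← mul_assoc]
    rw [Finset.sum_comm]
    simp only [← Finset.sum_mul, ih, h.stationary]

omit [DecidableEq A] in
theorem IsChain.sum_pair (a a' : A) : ∑ c, ∑ c', P a c * P a' c' = 1 := by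
  rw [← Finset.sum_mul_sum, h.sum_row, h.sum_row, one_mul]

omit h in
/-- The chance that two independent chains from `a` and `a'` have not met after `t` steps. -/
def apart (P : Matrix A A ℝ) : ℕ → A → A → ℝ
  | 0, a, a' => if a = a' then 0 else 1
  | t + 1, a, a' => if a = a' then 0 else ∑ c, ∑ c', P a c * P a' c' * apart P t c c'

omit h in
theorem apart_self (t : ℕ) (a : A) : apart P t a a = 0 := by
  cases t <;> simp [apart]

theorem IsChain.apart_nonneg (t : ℕ) (a a' : A) : 0 ≤ apart P t a a' := by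
  induction t generalizing a a' with
  | zero => simp only [apart]; split_ifs <;> simp
  | succ t ih =>
    simp only [apart]
    split_ifs
    · rfl
    · exact Finset.sum_nonneg fun c _ => Finset.sum_nonneg fun c' _ =>
        mul_nonneg (mul_nonneg (h.nonneg a c) (h.nonneg a' c')) (ih c c')

theorem IsChain.apart_le_one (t : ℕ) (a a' : A) : apart P t a a' ≤ 1 := by
  induction t generalizing a a' with
  | zero => simp only [apart]; split_ifs <;> simp
  | succ t ih =>
    simp only [apart]
    split_ifs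
    · exact zero_le_one
    · rw [← h.sum_pair a a']
      exact Finset.sum_le_sum fun c _ => Finset.sum_le_sum fun c' _ =>
        mul_le_of_le_one_right (mul_nonneg (h.nonneg a c) (h.nonneg a' c')) (ih c c')

theorem IsChain.apart_lt_one (t : ℕ) (a a' b : A) (hb : 0 < (P ^ t) a b)
    (hb' : 0 < (P ^ t) a' b) : apart P t a a' < 1 := by
  induction t generalizing a a' with
  | zero =>
    have e : ∀ x, 0 < (P ^ 0) x b → x = b := fun x hx => by
      by_contra hne
      simp [hne] at hx
    simp [apart, e a hb, e a' hb']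
  | succ t ih =>
    rcases eq_or_ne a a' with rfl | hne
    · simp [apart]
    have e : ∀ x, 0 < (P ^ (t + 1)) x b → ∃ c, 0 < P x c ∧ 0 < (P ^ t) c b := fun x hx => by
      rw [pow_succ', Matrix.mul_apply] at hx
      obtain ⟨c, -, hc⟩ := Finset.exists_ne_zero_of_sum_ne_zero hx.ne'
      exact ⟨c, (h.nonneg x c).lt_of_ne' (left_ne_zero_of_mul hc),
        (h.pow_nonneg t c b).lt_of_ne' (right_ne_zero_of_mul hc)⟩
    obtain ⟨c, hc, hcb⟩ := e a hb
    obtain ⟨c', hc', hcb'⟩ := e a' hb'
    simp only [apart, if_neg hne]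
    rw [← h.sum_pair a a']
    have hle : ∀ d d', P a d * P a' d' * apart P t d d' ≤ P a d * P a' d' := fun d d' =>
      mul_le_of_le_one_right (mul_nonneg (h.nonneg a d) (h.nonneg a' d')) (h.apart_le_one t d d')
    refine Finset.sum_lt_sum (fun d _ => Finset.sum_le_sum fun d' _ => hle d d') ⟨c,
      Finset.mem_univ c, Finset.sum_lt_sum (fun d' _ => hle c d') ⟨c', Finset.mem_univ c', ?_⟩⟩
    exact mul_lt_of_lt_one_right (mul_pos hc hc') (ih c c' hcb hcb')

theorem IsChain.apart_add_le {s : ℕ} {M : ℝ} (hM : ∀ a a', apart P s a a' ≤ M) (t : ℕ)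
    (a a' : A) : apart P (t + s) a a' ≤ apart P t a a' * M := by
  induction t generalizing a a' with
  | zero =>
    rw [Nat.zero_add]
    rcases eq_or_ne a a' with rfl | hne
    · simp [apart_self]
    · simpa [apart, hne] using hM a a'
  | succ t ih =>
    rw [Nat.succ_add]
    rcases eq_or_ne a a' with rfl | hne
    · simp [apart_self]
    simp only [apart, if_neg hne, Finset.sum_mul, mul_assoc]
    exact Finset.sum_le_sum fun c _ => Finset.sum_le_sum fun c' _ =>
      mul_le_mul_of_nonneg_left (mul_le_mul_of_nonneg_left (ih c c') (h.nonneg a' c'))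
        (h.nonneg a c)

theorem IsChain.abs_pow_sub_le (t : ℕ) (a a' b : A) :
    |(P ^ t) a b - (P ^ t) a' b| ≤ apart P t a a' := by
  induction t generalizing a a' with
  | zero =>
    rcases eq_or_ne a a' with rfl | hne
    · simp [apart]
    simp only [pow_zero, Matrix.one_apply, apart, if_neg hne]
    split_ifs <;> simp
  | succ t ih =>
    rcases eq_or_ne a a' with rfl | hne
    · simp [apart]
    have e : ∀ x, (P ^ (t + 1)) x b = ∑ c, P x c * (P ^ t) c b := fun x => by
      rw [pow_succ', Matrix.mul_apply]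
    have e2 : (P ^ (t + 1)) a b - (P ^ (t + 1)) a' b =
        ∑ c, ∑ c', P a c * P a' c' * ((P ^ t) c b - (P ^ t) c' b) := by
      have f1 : ∑ c, ∑ c', P a c * P a' c' * (P ^ t) c b = ∑ c, P a c * (P ^ t) c b :=
        Finset.sum_congr rfl fun c _ => by
          rw [← Finset.sum_mul, ← Finset.mul_sum, h.sum_row, mul_one]
      have f2 : ∑ c, ∑ c', P a c * P a' c' * (P ^ t) c' b = ∑ c', P a' c' * (P ^ t) c' b := by
        rw [Finset.sum_comm]
        exact Finset.sum_congr rfl fun c' _ => by
          rw [← Finset.sum_mul, ← Finset.sum_mul, h.sum_row, one_mul]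
      simp only [mul_sub, Finset.sum_sub_distrib, f1, f2, e]
    simp only [apart, if_neg hne]
    rw [e2]
    refine (Finset.abs_sum_le_sum_abs _ _).trans (Finset.sum_le_sum fun c _ =>
      (Finset.abs_sum_le_sum_abs _ _).trans (Finset.sum_le_sum fun c' _ => ?_))
    rw [abs_mul, abs_of_nonneg (mul_nonneg (h.nonneg a c) (h.nonneg a' c'))]
    exact mul_le_mul_of_nonneg_left (ih c c') (mul_nonneg (h.nonneg a c) (h.nonneg a' c'))

theorem IsChain.abs_pow_sub_vec_le {t : ℕ} {M : ℝ} (hM : ∀ a a', apart P t a a' ≤ M) (a b : A) :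
    |(P ^ t) a b - p b| ≤ M := by
  have e : (P ^ t) a b - p b = ∑ a', p a' * ((P ^ t) a b - (P ^ t) a' b) := by
    simp only [mul_sub, Finset.sum_sub_distrib, h.stationary_pow, ← Finset.sum_mul, h.sum_vec,
      one_mul]
  rw [e]
  refine (Finset.abs_sum_le_sum_abs _ _).trans ((Finset.sum_le_sum fun a' _ => ?_).trans_eq
    (show ∑ a', p a' * M = M by rw [← Finset.sum_mul, h.sum_vec, one_mul]))
  rw [abs_mul, abs_of_nonneg (h.nonneg_vec a')]
  exact mul_le_mul_of_nonneg_left ((h.abs_pow_sub_le t a a' b).trans (hM a a')) (h.nonneg_vec a')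

omit [DecidableEq A] in
theorem IsChain.nonempty : Nonempty A := by
  by_contra hA
  have := not_nonempty_iff.1 hA
  simpa using h.sum_vec

theorem IsChain.vec_pos {N : ℕ} (hN : ∀ a b, 0 < (P ^ N) a b) (b : A) : 0 < p b := by
  rw [← h.stationary_pow N b]
  obtain ⟨a, -, ha⟩ := Finset.exists_ne_zero_of_sum_ne_zero (h.sum_vec.trans_ne one_ne_zero)
  exact Finset.sum_pos' (fun a _ => mul_nonneg (h.nonneg_vec a) (h.pow_nonneg N a b))
    ⟨a, Finset.mem_univ a, mul_pos ((h.nonneg_vec a).lt_of_ne' ha) (hN a b)⟩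

theorem IsChain.exists_contraction {N : ℕ} (hN : ∀ a b, 0 < (P ^ N) a b) :
    ∃ θ, 0 ≤ θ ∧ θ < 1 ∧ ∀ a a', apart P N a a' ≤ θ := by
  have := h.nonempty
  obtain ⟨⟨a, a'⟩, -, hmax⟩ := Finset.exists_max_image (Finset.univ : Finset (A × A))
    (fun x => apart P N x.1 x.2) Finset.univ_nonempty
  exact ⟨_, h.apart_nonneg N a a', h.apart_lt_one N a a' a (hN a a) (hN a' a),
    fun b b' => hmax (b, b') (Finset.mem_univ _)⟩

theorem IsChain.apart_mul_le {N : ℕ} {θ : ℝ} (hθ0 : 0 ≤ θ)
    (hθ : ∀ a a', apart P N a a' ≤ θ) (j : ℕ) (a a' : A) : apart P (j * N) a a' ≤ θ ^ j := by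
  induction j generalizing a a' with
  | zero => simpa using h.apart_le_one 0 a a'
  | succ j ih =>
    rw [Nat.succ_mul, pow_succ]
    exact (h.apart_add_le hθ (j * N) a a').trans (mul_le_mul_of_nonneg_right (ih a a') hθ0)

/-- **The powers of a primitive matrix tend to the stationary vector.** -/
theorem IsChain.exists_pow_near {N : ℕ} (hN : ∀ a b, 0 < (P ^ N) a b) {ε : ℝ} (hε : 0 < ε) :
    ∃ t, ∀ a b, |(P ^ t) a b - p b| ≤ ε := by
  obtain ⟨θ, hθ0, hθ1, hθ⟩ := h.exists_contraction hN
  obtain ⟨j, hj⟩ := exists_pow_lt_of_lt_one hε hθ1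
  exact ⟨j * N, h.abs_pow_sub_vec_le fun a a' => (h.apart_mul_le hθ0 hθ j a a').trans hj.le⟩

/-- **A drift function**: it is bounded, vanishes on the diagonal and decreases on average by a
fixed amount under a step of two independent chains that are apart. -/
theorem IsChain.exists_drift {N : ℕ} (hN : ∀ a b, 0 < (P ^ N) a b) :
    ∃ (V : A → A → ℝ) (δ M : ℝ), 0 < δ ∧ 0 ≤ M ∧ (∀ a a', 0 ≤ V a a' ∧ V a a' ≤ M) ∧
      (∀ a, V a a = 0) ∧
      ∀ a a', a ≠ a' → ∑ c, ∑ c', P a c * P a' c' * V c c' + δ ≤ V a a' := by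
  obtain ⟨θ, -, hθ1, hθ⟩ := h.exists_contraction hN
  refine ⟨fun a a' => ∑ t ∈ Finset.range N, apart P t a a', 1 - θ, N, sub_pos.2 hθ1,
    N.cast_nonneg, fun a a' => ⟨Finset.sum_nonneg fun t _ => h.apart_nonneg t a a',
      (Finset.sum_le_sum fun t _ => h.apart_le_one t a a').trans_eq (by simp)⟩,
    fun a => by simp [apart_self], fun a a' hne => ?_⟩
  have e : ∑ c, ∑ c', P a c * P a' c' * ∑ t ∈ Finset.range N, apart P t c c' =
      ∑ t ∈ Finset.range N, apart P (t + 1) a a' := by
    simp only [Finset.mul_sum]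
    rw [Finset.sum_congr rfl fun c _ => Finset.sum_comm, Finset.sum_comm]
    exact Finset.sum_congr rfl fun t _ => by simp only [apart, if_neg hne]
  rw [e]
  have h2 := Finset.sum_range_succ' (fun t => apart P t a a') N
  rw [Finset.sum_range_succ] at h2
  have h3 : apart P 0 a a' = 1 := by simp [apart, hne]
  linarith [hθ a a']

end FA.MarkovShift

end
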