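import Fermat.Agent.MarkovShift.Blocks
import Fermat.Agent.MarkovShift.Drift
import Mathlib.MeasureTheory.Measure.SeparableMeasure

/-!
# Markov shifts

The invariant measure of a stochastic matrix and a stationary vector exists, and if a power of the
matrix is positive the shift is ergodic.
-/

set_option autoImplicit false

noncomputable section

open MeasureTheory Filter Topology
open FA.KolmogorovSinai (shift entropy rate)
open FA.Ornstein
open scoped symmDiff

namespace FA.MarkovShift

variable {A : Type*} [Fintype A] [DecidableEq A]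

/-- The probability of a path. -/
def chainW (P : Matrix A A ℝ) (p : A → ℝ) : ∀ n, (Fin n → A) → ℝ
  | 0, _ => 1
  | n + 1, w => p (w 0) * ∏ j : Fin n, P (w j.castSucc) (w j.succ)

omit [Fintype A] [DecidableEq A] in
theorem chainW_snoc (P : Matrix A A ℝ) (p : A → ℝ) (n : ℕ) (w : Fin (n + 1) → A) (c : A) :
    chainW P p (n + 2) (Fin.snoc w c) = chainW P p (n + 1) w * P (w (Fin.last n)) c := by
  have h0 : (Fin.snoc w c : Fin (n + 2) → A) 0 = w 0 := by
    rw [← Fin.castSucc_zero, Fin.snoc_castSucc]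
  simp only [chainW, h0, Fin.prod_univ_castSucc, Fin.succ_last, Fin.snoc_last, Fin.succ_castSucc,
    Fin.snoc_castSucc]
  ring

omit [Fintype A] [DecidableEq A] in
theorem chainW_cons (P : Matrix A A ℝ) (p : A → ℝ) (n : ℕ) (w : Fin (n + 1) → A) (a : A) :
    chainW P p (n + 2) (Fin.cons a w) =
      p a * P a (w 0) * ∏ j : Fin n, P (w j.castSucc) (w j.succ) := by
  simp only [chainW, Fin.cons_zero, Fin.prod_univ_succ, Fin.castSucc_zero, Fin.cons_succ,
    ← Fin.succ_castSucc]
  ring

variable [MeasurableSpace A] [MeasurableSingletonClass A]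

omit [DecidableEq A] [Fintype A] [MeasurableSingletonClass A] in
/-- The invariant measure whose blocks are the paths of the chain. -/
structure IsMarkov (P : Matrix A A ℝ) (p : A → ℝ) (μ : Measure (ℤ → A)) : Prop where
  isProb : IsProbabilityMeasure μ
  mp : MeasurePreserving (shift A) μ μ
  blk_eq : ∀ n w, μ.real (blk n ⁻¹' {w}) = chainW P p n w

omit [DecidableEq A] in
/-- **The Markov measure exists.** -/
theorem exists_isMarkov {P : Matrix A A ℝ} {p : A → ℝ} (h : IsChain P p) :
    ∃ μ : Measure (ℤ → A), IsMarkov P p μ := by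
  have := h.nonempty
  refine (exists_of_blocks (chainW P p) (fun n w => ?_) (fun _ => rfl) (fun n w => ?_)
    fun n w => ?_).imp fun μ hμ => ⟨hμ.1, hμ.2.1, hμ.2.2⟩
  · cases n with
    | zero => exact zero_le_one
    | succ n =>
      exact mul_nonneg (h.nonneg_vec _) (Finset.prod_nonneg fun j _ => h.nonneg _ _)
  · cases n with
    | zero => simp [chainW, Fin.snoc, h.sum_vec]
    | succ n => simp [chainW_snoc, ← Finset.mul_sum, h.sum_row]
  · cases n with
    | zero => simp [chainW, h.sum_vec]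
    | succ n =>
      simp only [chainW_cons, ← Finset.sum_mul, h.stationary]
      rfl

variable {P : Matrix A A ℝ} {p : A → ℝ} {μ : Measure (ℤ → A)}

omit [Fintype A] in
/-- **The Markov property.** -/
theorem IsMarkov.step (hM : IsMarkov P p μ) (n : ℕ) (S : Finset (Fin (n + 1) → A)) (c : A) :
    μ.real (blk (n + 1) ⁻¹' (S : Set (Fin (n + 1) → A)) ∩ {x | x ((n + 1 : ℕ) : ℤ) = c}) =
      ∑ w ∈ S, μ.real (blk (n + 1) ⁻¹' {w}) * P (w (Fin.last n)) c := by
  have := hM.isProb
  have e : (blk (n + 1) ⁻¹' (S : Set (Fin (n + 1) → A)) ∩ {x | x ((n + 1 : ℕ) : ℤ) = c}) =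
      blk (n + 2) ⁻¹' ↑(S.image fun w => (Fin.snoc w c : Fin (n + 2) → A)) := by
    ext x
    simp only [Set.mem_inter_iff, Set.mem_preimage, Finset.mem_coe, Set.mem_ofPred_eq,
      Finset.mem_image]
    refine ⟨fun ⟨h1, h2⟩ => ⟨_, h1, funext fun j => ?_⟩, fun ⟨w, hw, he⟩ => ?_⟩
    · refine Fin.lastCases ?_ (fun i => ?_) j
      · rw [Fin.snoc_last]
        exact h2.symm
      · rw [Fin.snoc_castSucc]
        rfl
    · refine ⟨?_, ?_⟩
      · convert hw
        funext i
        have := congrFun he i.castSucc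
        rw [Fin.snoc_castSucc] at this
        exact this.symm
      · have := congrFun he (Fin.last (n + 1))
        rw [Fin.snoc_last] at this
        exact this.symm
  rw [e, ← sum_measureReal_preimage_singleton _
    fun u _ => measurable_blk (n + 2) (measurableSet_singleton u),
    Finset.sum_image fun w _ w' _ he => funext fun i => by
      simpa using congrFun he i.castSucc]
  exact Finset.sum_congr rfl fun w _ => by rw [hM.blk_eq, hM.blk_eq, chainW_snoc]

theorem IsMarkov.step_last (hM : IsMarkov P p μ) (n : ℕ) (S : Set (Fin (n + 1) → A)) (b c : A)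
    (hS : ∀ w ∈ S, w (Fin.last n) = b) :
    μ.real (blk (n + 1) ⁻¹' S ∩ {x | x ((n + 1 : ℕ) : ℤ) = c}) =
      μ.real (blk (n + 1) ⁻¹' S) * P b c := by
  classical
  have := hM.isProb
  rw [← Set.coe_toFinset S, hM.step n S.toFinset c, ← sum_measureReal_preimage_singleton _
    fun w _ => measurable_blk (n + 1) (measurableSet_singleton w), Finset.sum_mul]
  exact Finset.sum_congr rfl fun w hw => by rw [hS w (Set.mem_toFinset.1 hw)]

/-- The chance of a block and a later letter. -/
theorem IsMarkov.gap (hM : IsMarkov P p μ) (k : ℕ) (w : Fin (k + 1) → A) :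
    ∀ (g : ℕ) (b : A), μ.real (blk (k + 1) ⁻¹' {w} ∩ {x | x ((k + g : ℕ) : ℤ) = b}) =
      μ.real (blk (k + 1) ⁻¹' {w}) * (P ^ g) (w (Fin.last k)) b := by
  have := hM.isProb
  intro g
  induction g with
  | zero =>
    intro b
    rw [pow_zero, Matrix.one_apply]
    simp only [Nat.add_zero]
    have hlast : ∀ x ∈ blk (k + 1) ⁻¹' {w}, x ((k : ℕ) : ℤ) = w (Fin.last k) := fun x hx =>
      congrFun hx (Fin.last k)
    split_ifs with hb
    · rw [mul_one, (Set.inter_eq_left (t := {x : ℤ → A | x (k : ℤ) = b})).2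
        fun x hx => (hlast x hx).trans hb]
    · rw [mul_zero, Set.eq_empty_of_forall_notMem
        (s := blk (k + 1) ⁻¹' {w} ∩ {x : ℤ → A | x (k : ℤ) = b}) fun x hx =>
          hb ((hlast x hx.1).symm.trans hx.2), measureReal_empty]
  | succ g ih =>
    intro b
    let S : A → Set (Fin (k + g + 1) → A) := fun c =>
      {u | (fun j : Fin (k + 1) => u ⟨(j : ℕ), by omega⟩) = w ∧ u (Fin.last (k + g)) = c}
    have e : blk (k + 1) ⁻¹' {w} ∩ {x : ℤ → A | x ((k + (g + 1) : ℕ) : ℤ) = b} =
        ⋃ c, blk (k + g + 1) ⁻¹' S c ∩ {x | x ((k + g + 1 : ℕ) : ℤ) = b} := by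
      ext x
      simp only [Set.mem_inter_iff, Set.mem_preimage, Set.mem_singleton_iff, Set.mem_iUnion,
        Set.mem_ofPred_eq, S]
      exact ⟨fun ⟨h1, h2⟩ => ⟨_, ⟨h1, rfl⟩, h2⟩, fun ⟨c, ⟨h1, _⟩, h2⟩ => ⟨h1, h2⟩⟩
    rw [e, measureReal_iUnion_fintype (fun c c' hcc => Set.disjoint_left.2 fun x hx hx' =>
        hcc (hx.1.2.symm.trans hx'.1.2))
        (fun c => (measurable_blk _ (Set.toFinite _).measurableSet).inter
          (measurableSet_eq_fun (measurable_pi_apply _) measurable_const)),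
      pow_succ, Matrix.mul_apply, Finset.mul_sum]
    refine Finset.sum_congr rfl fun c _ => ?_
    rw [hM.step_last (k + g) (S c) c b fun u hu => hu.2, ← mul_assoc, ← ih c]
    rfl

/-- The chance of two blocks with a gap. -/
theorem IsMarkov.two_blocks (hM : IsMarkov P p μ) (k g : ℕ) (w : Fin (k + 1) → A) :
    ∀ (l : ℕ) (v : Fin (l + 1) → A),
      μ.real (blk (k + 1) ⁻¹' {w} ∩ tr ((k + g : ℕ) : ℤ) ⁻¹' (blk (l + 1) ⁻¹' {v})) * p (v 0) =
        μ.real (blk (k + 1) ⁻¹' {w}) * (P ^ g) (w (Fin.last k)) (v 0) *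
          μ.real (blk (l + 1) ⁻¹' {v}) := by
  have := hM.isProb
  intro l
  induction l with
  | zero =>
    intro v
    have e : (tr ((k + g : ℕ) : ℤ) ⁻¹' (blk 1 ⁻¹' {v}) : Set (ℤ → A)) =
        {x | x ((k + g : ℕ) : ℤ) = v 0} := by
      ext x
      simp [blk, tr, funext_iff]
    rw [e, hM.gap k w g, hM.blk_eq 1 v]
    simp [chainW]
  | succ l ih =>
    intro v
    obtain ⟨v, c, rfl⟩ : ∃ (v' : Fin (l + 1) → A) (c : A), v = Fin.snoc v' c :=
      ⟨_, _, (Fin.snoc_init_self v).symm⟩
    let S : Set (Fin (k + g + l + 1) → A) :=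
      {u | (fun j : Fin (k + 1) => u ⟨(j : ℕ), by omega⟩) = w ∧
        (fun j : Fin (l + 1) => u ⟨k + g + (j : ℕ), by omega⟩) = v}
    have e1 : blk (k + 1) ⁻¹' {w} ∩ tr ((k + g : ℕ) : ℤ) ⁻¹' (blk (l + 1) ⁻¹' {v}) =
        (blk (k + g + l + 1) ⁻¹' S : Set (ℤ → A)) := by
      ext x
      simp only [Set.mem_inter_iff, Set.mem_preimage, Set.mem_singleton_iff, S, Set.mem_ofPred_eq]
      refine and_congr_right fun _ => iff_of_eq (congrArg (· = v) (funext fun j => ?_))
      simp only [blk, tr]
      push_cast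
      rw [add_comm]
    have e2 : blk (k + 1) ⁻¹' {w} ∩ tr ((k + g : ℕ) : ℤ) ⁻¹'
          (blk (l + 2) ⁻¹' {(Fin.snoc v c : Fin (l + 2) → A)}) =
        (blk (k + g + l + 1) ⁻¹' S : Set (ℤ → A)) ∩ {x | x ((k + g + l + 1 : ℕ) : ℤ) = c} := by
      rw [← e1, Set.inter_assoc]
      congr 1
      ext x
      simp only [Set.mem_inter_iff, Set.mem_preimage, Set.mem_singleton_iff, Set.mem_ofPred_eq,
        funext_iff, Fin.forall_fin_succ', Fin.snoc_castSucc, Fin.snoc_last]
      refine and_congr Iff.rfl (iff_of_eq (congrArg (x · = c) ?_))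
      simp only [Fin.val_last]
      push_cast
      ring
    have hlast : ∀ u ∈ S, u (Fin.last (k + g + l)) = v (Fin.last l) := fun u hu => by
      rw [← congrFun hu.2 (Fin.last l)]
      congr 1
    rw [e2, hM.step_last _ S _ c hlast, ← e1, hM.blk_eq (l + 2), chainW_snoc, ← hM.blk_eq (l + 1),
      ← Fin.castSucc_zero, Fin.snoc_castSucc, mul_right_comm, ih v]
    ring

/-- **A mixing Markov shift is ergodic.** -/
theorem IsMarkov.ergodic (hM : IsMarkov P p μ) (h : IsChain P p) {N : ℕ}
    (hN : ∀ a b, 0 < (P ^ N) a b) : Ergodic (shift A) μ := by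
  have := hM.isProb
  have hν := hM.mp
  refine { toMeasurePreserving := hν, aeconst_set := ?_ }
  intro E hE hinv
  set a := μ.real E
  have hinv' : ∀ k : ℕ, tr (k : ℤ) ⁻¹' E = E := fun k => by
    rw [← iterate_shift]
    induction k with
    | zero => simp
    | succ k ih => rw [Function.iterate_succ', Set.preimage_comp, hinv, ih]
  have hle : ∀ ε > 0, |a - a * a| ≤ 2 * ε := by
    intro ε hε
    obtain ⟨T, ⟨r, S, hT⟩, hlt⟩ := (Measure.MeasureDense.of_generateFrom_isSetAlgebra_finite
      (μ := μ) isSetAlgebra_winEvents generateFrom_winEvents).approx E hE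
        (measure_ne_top _ _) (ε / 4) (by positivity)
    have hmT : MeasurableSet T := hT ▸ measurable_win r S.toFinite.measurableSet
    have hd : μ.real (E ∆ T) ≤ ε / 4 := (ENNReal.toReal_lt_of_lt_ofReal hlt).le
    set C : ℝ := (Fintype.card (Fin (2 * r + 1) → A) : ℝ) ^ 2
    have : Nonempty A := h.nonempty
    have hpos : ∀ b, 0 < p b := h.vec_pos hN
    obtain ⟨b₀, -, hb₀⟩ := Finset.exists_min_image Finset.univ p Finset.univ_nonempty
    have hC : 0 < C := pow_pos (Nat.cast_pos.2 Fintype.card_pos) 2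
    obtain ⟨g, hg⟩ := h.exists_pow_near hN (ε := ε / 4 * p b₀ / C) (by
      have := hpos b₀
      positivity)
    set k := ((2 * r + g : ℕ) : ℤ)
    set T' := tr k ⁻¹' T
    have hmT' : MeasurableSet T' := measurable_tr _ hmT
    have hpres : ∀ (i : ℤ) {F : Set (ℤ → A)}, MeasurableSet F →
        μ.real (tr i ⁻¹' F) = μ.real F := fun i F hF => measureReal_tr hν i hF
    have hprod : |μ.real (T ∩ T') - μ.real T * μ.real T'| ≤ ε / 4 := by
      have e1 : T = tr (-(r : ℤ)) ⁻¹' (blk (2 * r + 1) ⁻¹' S) := by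
        ext x
        simp [← hT, win_eq_blk]
      have e2 : T ∩ T' = tr (-(r : ℤ)) ⁻¹'
          (blk (2 * r + 1) ⁻¹' S ∩ tr k ⁻¹' (blk (2 * r + 1) ⁻¹' S)) := by
        simp only [T', Set.preimage_inter, ← e1]
        congr 1
        ext x
        simp only [← hT, Set.mem_preimage, win_eq_blk, tr_tr, add_comm]
      have hmb : MeasurableSet (blk (2 * r + 1) ⁻¹' S : Set (ℤ → A)) :=
        measurable_blk _ S.toFinite.measurableSet
      rw [hpres _ hmT, e2, hpres _ (hmb.inter (measurable_tr _ hmb)), e1, hpres _ hmb]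
      classical
      have hsum : μ.real (blk (2 * r + 1) ⁻¹' S) =
          ∑ w ∈ S.toFinset, μ.real (blk (2 * r + 1) ⁻¹' {w}) := by
        rw [sum_measureReal_preimage_singleton _
          fun w _ => measurable_blk _ (measurableSet_singleton w), Set.coe_toFinset]
      have hpair : μ.real (blk (2 * r + 1) ⁻¹' S ∩ tr k ⁻¹' (blk (2 * r + 1) ⁻¹' S)) =
          ∑ w ∈ S.toFinset, ∑ v ∈ S.toFinset,
            μ.real (blk (2 * r + 1) ⁻¹' {w} ∩ tr k ⁻¹' (blk (2 * r + 1) ⁻¹' {v})) := by
        have hf : Measurable fun x : ℤ → A =>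
            (blk (2 * r + 1) x, blk (2 * r + 1) (tr k x)) :=
          (measurable_blk _).prodMk ((measurable_blk _).comp (measurable_tr _))
        rw [← Finset.sum_product', show (blk (2 * r + 1) ⁻¹' S ∩ tr k ⁻¹' (blk (2 * r + 1) ⁻¹' S)) =
          (fun x : ℤ → A => (blk (2 * r + 1) x, blk (2 * r + 1) (tr k x))) ⁻¹'
            ↑(S.toFinset ×ˢ S.toFinset) by ext x; simp,
          ← sum_measureReal_preimage_singleton _ fun u _ => hf (measurableSet_singleton u)]
        refine Finset.sum_congr rfl fun u _ => congrArg μ.real ?_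
        ext x
        simp [Prod.ext_iff]
      rw [hpair, hsum, Finset.sum_mul_sum, ← Finset.sum_sub_distrib]
      simp only [← Finset.sum_sub_distrib]
      refine (Finset.abs_sum_le_sum_abs _ _).trans ((Finset.sum_le_sum fun w _ =>
        (Finset.abs_sum_le_sum_abs _ _).trans (Finset.sum_le_sum fun v _ =>
          show _ ≤ ε / 4 / C from ?_)).trans ?_)
      · set M := μ.real (blk (2 * r + 1) ⁻¹' {w})
        set M' := μ.real (blk (2 * r + 1) ⁻¹' {v})
        set Pg := (P ^ g) (w (Fin.last (2 * r))) (v 0)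
        have h1 := hM.two_blocks (2 * r) g w (2 * r) v
        have h2 := hg (w (Fin.last (2 * r))) (v 0)
        set Q := μ.real (blk (2 * r + 1) ⁻¹' {w} ∩ tr k ⁻¹' (blk (2 * r + 1) ⁻¹' {v}))
        have hMM : 0 ≤ M * M' ∧ M * M' ≤ 1 :=
          ⟨mul_nonneg measureReal_nonneg measureReal_nonneg,
            mul_le_one₀ measureReal_le_one measureReal_nonneg measureReal_le_one⟩
        refine le_of_mul_le_mul_left ?_ (hpos b₀)
        calc p b₀ * |Q - M * M'| ≤ p (v 0) * |Q - M * M'| :=
              mul_le_mul_of_nonneg_right (hb₀ _ (Finset.mem_univ _)) (abs_nonneg _)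
          _ = (M * M') * |Pg - p (v 0)| := by
              rw [← abs_of_pos (hpos (v 0)), ← abs_mul, ← abs_of_nonneg hMM.1, ← abs_mul,
                abs_of_pos (hpos (v 0)), abs_of_nonneg hMM.1]
              congr 1
              linear_combination h1
          _ ≤ 1 * (ε / 4 * p b₀ / C) := mul_le_mul hMM.2 h2 (abs_nonneg _) zero_le_one
          _ = p b₀ * (ε / 4 / C) := by ring
      · simp only [Finset.sum_const, nsmul_eq_mul, ← mul_assoc]
        refine (mul_le_mul_of_nonneg_right ?_ (by positivity)).trans_eq (mul_div_cancel₀ _ hC.ne')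
        rw [← sq]
        exact pow_le_pow_left₀ (Nat.cast_nonneg _)
          (Nat.cast_le.2 (Finset.card_le_univ _)) 2
    have hd' : μ.real (E ∆ T') ≤ ε / 4 := by
      refine le_trans (le_of_eq ?_) hd
      conv_lhs => rw [← hinv' (2 * r + g), ← Set.preimage_symmDiff, hpres _ (hE.symmDiff hmT)]
    have hbT : |a - μ.real T| ≤ ε / 4 :=
      (abs_measureReal_sub_le_measureReal_symmDiff hE.nullMeasurableSet
        hmT.nullMeasurableSet).trans hd
    have hbI : |a - μ.real (T ∩ T')| ≤ ε / 2 := by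
      refine (abs_measureReal_sub_le_measureReal_symmDiff hE.nullMeasurableSet
        (hmT.inter hmT').nullMeasurableSet).trans ?_
      refine (measureReal_mono (s₂ := E ∆ T ∪ E ∆ T') fun η hη => ?_).trans
        ((measureReal_union_le _ _).trans (by linarith))
      simp only [Set.mem_symmDiff, Set.mem_inter_iff, Set.mem_union] at hη ⊢
      tauto
    rw [hpres _ hmT] at hprod
    rw [abs_le] at hbT hbI hprod ⊢
    have t0 : 0 ≤ μ.real T := measureReal_nonneg
    have t1 : μ.real T ≤ 1 := measureReal_le_one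
    have a0 : 0 ≤ a := measureReal_nonneg
    have a1 : a ≤ 1 := measureReal_le_one
    constructor <;> nlinarith
  have h0 : a - a * a = 0 := by
    have := le_of_forall_pos_le_add (a := |a - a * a|) (b := 0) fun ε hε => by
      linarith [hle (ε / 2) (half_pos hε)]
    exact abs_nonpos_iff.1 this
  rcases mul_eq_zero.1 (show a * (1 - a) = 0 by linarith) with h | h
  · exact eventuallyConst_set'.2 (Or.inl (ae_eq_empty.2
      ((measureReal_eq_zero_iff (measure_ne_top _ _)).1 h)))
  · refine eventuallyConst_set'.2 (Or.inr (ae_eq_univ.2 ?_))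
    refine (measureReal_eq_zero_iff (measure_ne_top _ _)).1 ?_
    rw [probReal_compl_eq_one_sub hE]
    linarith

end FA.MarkovShift

end
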