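import Fermat.Agent.MarkovShift.Basic
import Fermat.Agent.Ornstein.Joining

/-!
# Mixing Markov shifts are finitely determined

The entropy rate is the mean entropy of the rows. A process with nearly the law of two letters and
nearly that rate is coupled with the chain step by step: as well as possible when the last letters
agree, independently otherwise. A drift function bounds the disagreements.
-/

set_option autoImplicit false

noncomputable section

open MeasureTheory Filter Topology Real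
open FA.KolmogorovSinai (shift entropy rate)
open FA.Ornstein

namespace FA.MarkovShift

variable {A : Type*} [Fintype A] [DecidableEq A]

/-- One step of the coupling. -/
def stepC (P : Matrix A A ℝ) (r : A → ℝ) (a a' c c' : A) : ℝ :=
  if a = a' then maxCoupling r (fun b => P a b) c c' else r c * P a' c'

section Step

variable {P : Matrix A A ℝ} {p : A → ℝ} (h : IsChain P p) {r : A → ℝ} (hr : ∀ c, 0 ≤ r c)
  (hr1 : ∑ c, r c = 1)

include h hr hr1

theorem stepC_nonneg (a a' c c' : A) : 0 ≤ stepC P r a a' c c' := by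
  unfold stepC
  split_ifs
  · exact maxCoupling_nonneg hr (h.nonneg a) hr1 c c'
  · exact mul_nonneg (hr c) (h.nonneg a' c')

omit hr in
theorem stepC_sum_right (a a' c : A) : ∑ c', stepC P r a a' c c' = r c := by
  unfold stepC
  split_ifs
  · exact maxCoupling_sum_right hr1 (h.sum_row a) c
  · rw [← Finset.mul_sum, h.sum_row, mul_one]

omit hr in
theorem stepC_sum_left (a a' c' : A) : ∑ c, stepC P r a a' c c' = P a' c' := by
  unfold stepC
  split_ifs with he
  · subst he
    exact maxCoupling_sum_left hr1 (h.sum_row a) c'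
  · rw [← Finset.sum_mul, hr1, one_mul]

theorem stepC_drift {V : A → A → ℝ} {δ M : ℝ} (hM : 0 ≤ M)
    (hV : ∀ a a', 0 ≤ V a a' ∧ V a a' ≤ M) (hV0 : ∀ a, V a a = 0)
    (hd : ∀ a a', a ≠ a' → ∑ c, ∑ c', P a c * P a' c' * V c c' + δ ≤ V a a') (a a' : A) :
    (∑ c, ∑ c', stepC P r a a' c c' * V c c') + δ * (if a ≠ a' then 1 else 0) ≤
      V a a' + M * ∑ c, |r c - P a c| := by
  rcases eq_or_ne a a' with rfl | hne
  · rw [hV0, if_neg (not_not.2 rfl), mul_zero, add_zero, zero_add]
    refine le_trans ?_ (mul_le_mul_of_nonneg_left (maxCoupling_ne_le (r := r)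
      (q := fun b => P a b) hr1 (h.sum_row a)) hM)
    simp only [Finset.mul_sum]
    refine Finset.sum_le_sum fun c _ => Finset.sum_le_sum fun c' _ => ?_
    simp only [stepC, if_true]
    rcases eq_or_ne c c' with rfl | hc
    · simp [hV0]
    · rw [if_pos hc, mul_one, mul_comm M]
      exact mul_le_mul_of_nonneg_left (hV c c').2 (maxCoupling_nonneg hr (h.nonneg a) hr1 c c')
  · rw [if_pos hne, mul_one]
    simp only [stepC, if_neg hne]
    have h1 := hd a a' hne
    have h2 : ∑ c, ∑ c', r c * P a' c' * V c c' ≤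
        ∑ c, ∑ c', P a c * P a' c' * V c c' + M * ∑ c, |r c - P a c| := by
      rw [Finset.mul_sum, ← Finset.sum_add_distrib]
      refine Finset.sum_le_sum fun c _ => ?_
      have h3 : ∑ c', r c * P a' c' * V c c' - ∑ c', P a c * P a' c' * V c c' =
          (r c - P a c) * ∑ c', P a' c' * V c c' := by
        rw [Finset.mul_sum, ← Finset.sum_sub_distrib]
        exact Finset.sum_congr rfl fun c' _ => by ring
      have h4 : 0 ≤ ∑ c', P a' c' * V c c' :=
        Finset.sum_nonneg fun c' _ => mul_nonneg (h.nonneg a' c') (hV c c').1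
      have h5 : ∑ c', P a' c' * V c c' ≤ M := by
        refine (Finset.sum_le_sum fun c' _ =>
          mul_le_mul_of_nonneg_left (hV c c').2 (h.nonneg a' c')).trans_eq ?_
        rw [← Finset.sum_mul, h.sum_row, one_mul]
      nlinarith [mul_le_mul_of_nonneg_right (le_abs_self (r c - P a c)) h4,
        mul_le_mul_of_nonneg_left h5 (abs_nonneg (r c - P a c))]
    linarith

end Step

variable [MeasurableSpace A] [MeasurableSingletonClass A]

/-- The coupling of the blocks of `ρ` with the paths of the chain, for positive lengths. -/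
def cplS (ρ : Measure (ℤ → A)) (q : Measure A) (P : Matrix A A ℝ) (p : A → ℝ) :
    ∀ n, (Fin (n + 1) → A) → (Fin (n + 1) → A) → ℝ
  | 0, w, v => ρ.real (blk 1 ⁻¹' {w}) * p (v 0)
  | n + 1, w, v => cplS ρ q P p n (Fin.init w) (Fin.init v) *
      stepC P (cnd ρ q (n + 1) (Fin.init w)) (Fin.init w (Fin.last n)) (Fin.init v (Fin.last n))
        (w (Fin.last (n + 1))) (v (Fin.last (n + 1)))

/-- The coupling of the blocks of `ρ` with the paths of the chain. -/
def cplM (ρ : Measure (ℤ → A)) (q : Measure A) (P : Matrix A A ℝ) (p : A → ℝ) :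
    ∀ n, (Fin n → A) → (Fin n → A) → ℝ
  | 0, _, _ => 1
  | n + 1, w, v => cplS ρ q P p n w v

variable {P : Matrix A A ℝ} {p : A → ℝ} {μ : Measure (ℤ → A)}

omit [DecidableEq A] in
/-- **The entropy rate of a Markov shift.** -/
theorem IsMarkov.rate_eq (hM : IsMarkov P p μ) (h : IsChain P p) :
    rate μ (shift A) (fun x => x 0) = ∑ a, p a * ∑ b, negMulLog (P a b) := by
  have := hM.isProb
  obtain ⟨a₀⟩ := h.nonempty
  set H := ∑ a, p a * ∑ b, negMulLog (P a b)
  have hstep : ∀ n, entropy μ (blk (n + 2)) = entropy μ (blk (n + 1)) + H := fun n => by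
    rw [entropy_blk_succ μ (Measure.dirac a₀) (n + 1)]
    congr 1
    have e1 : ∀ w : Fin (n + 1) → A, μ.real (blk (n + 1) ⁻¹' {w}) *
        ∑ b, negMulLog (cnd μ (Measure.dirac a₀) (n + 1) w b) =
        μ.real (blk (n + 1) ⁻¹' {w}) * ∑ b, negMulLog (P (w (Fin.last n)) b) := fun w => by
      rcases eq_or_ne (μ.real (blk (n + 1) ⁻¹' {w})) 0 with h0 | h0
      · rw [h0, zero_mul, zero_mul]
      refine congrArg _ (Finset.sum_congr rfl fun b _ => congrArg _ ?_)
      rw [cnd, if_neg h0, hM.blk_eq, hM.blk_eq, chainW_snoc, mul_div_cancel_left₀]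
      rwa [hM.blk_eq] at h0
    rw [Finset.sum_congr rfl fun w _ => e1 w]
    have e2 := sum_blk_sub hM.mp (n := n + 1) (k := 1) n le_rfl
      fun t => ∑ b, negMulLog (P (t 0) b)
    refine Eq.trans ?_ (e2.trans ?_)
    · exact Finset.sum_congr rfl fun w _ => rfl
    · rw [← (Equiv.funUnique (Fin 1) A).symm.sum_comp]
      simp [hM.blk_eq, chainW, H]
  have hlin : ∀ n : ℕ, entropy μ (blk (n + 1)) = entropy μ (blk 1) + n * H := fun n => by
    induction n with
    | zero => simp
    | succ n ih =>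
      rw [hstep, ih]
      push_cast
      ring
  refine tendsto_nhds_unique
    (FA.KolmogorovSinai.tendsto_rate hM.mp (measurable_pi_apply (0 : ℤ))) ?_
  have hlim : Tendsto (fun n : ℕ => H + (entropy μ (blk 1) - H) / n) atTop (𝓝 H) := by
    simpa using (tendsto_const_nhds (x := entropy μ (blk 1) - H)).div_atTop
      tendsto_natCast_atTop_atTop |>.const_add H
  refine hlim.congr' ((eventually_ge_atTop 1).mono fun n hn => ?_)
  obtain ⟨m, rfl⟩ := Nat.exists_eq_add_of_le' hn
  dsimp only
  rw [word_eq_blk, hlin m]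
  push_cast
  field_simp
  ring

section Bound

variable {ρ : Measure (ℤ → A)} [IsProbabilityMeasure ρ] (q : Measure A) [IsProbabilityMeasure q]
  (h : IsChain P p)

include h

theorem cplS_nonneg : ∀ (n : ℕ) (w v : Fin (n + 1) → A), 0 ≤ cplS ρ q P p n w v
  | 0, _, _ => mul_nonneg measureReal_nonneg (h.nonneg_vec _)
  | n + 1, _, _ => mul_nonneg (cplS_nonneg n _ _) (stepC_nonneg h
      (cnd_nonneg ρ q (n + 1) _) (sum_cnd ρ q (n + 1) _) _ _ _ _)

theorem cplS_sum_right : ∀ (n : ℕ) (w : Fin (n + 1) → A),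
    ∑ v, cplS ρ q P p n w v = ρ.real (blk (n + 1) ⁻¹' {w})
  | 0, w => by
    rw [← (Equiv.funUnique (Fin 1) A).symm.sum_comp]
    simp [cplS, ← Finset.mul_sum, h.sum_vec]
  | n + 1, w => by
    rw [← (Fin.snocEquiv fun _ => A).sum_comp, Fintype.sum_prod_type_right]
    simp only [Fin.snocEquiv, Equiv.coe_fn_mk, cplS, Fin.init_snoc, Fin.snoc_last, ← Finset.mul_sum,
      stepC_sum_right h (sum_cnd ρ q (n + 1) _), ← Finset.sum_mul, cplS_sum_right n,
      ← blk_snoc_eq, Fin.snoc_init_self]

omit [IsProbabilityMeasure ρ] in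
theorem cplS_sum_left [IsProbabilityMeasure ρ] (hM : IsMarkov P p μ) :
    ∀ (n : ℕ) (v : Fin (n + 1) → A), ∑ w, cplS ρ q P p n w v = μ.real (blk (n + 1) ⁻¹' {v})
  | 0, v => by
    rw [hM.blk_eq]
    simp [cplS, chainW, ← Finset.sum_mul, sum_blk ρ 1]
  | n + 1, v => by
    rw [← (Fin.snocEquiv fun _ => A).sum_comp, Fintype.sum_prod_type_right]
    simp only [Fin.snocEquiv, Equiv.coe_fn_mk, cplS, Fin.init_snoc, Fin.snoc_last, ← Finset.mul_sum,
      stepC_sum_left h (sum_cnd ρ q (n + 1) _), ← Finset.sum_mul, cplS_sum_left hM n]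
    rw [hM.blk_eq, hM.blk_eq]
    conv_rhs => rw [← Fin.snoc_init_self v]
    rw [chainW_snoc]

theorem couples_cplM (hM : IsMarkov P p μ) : Couples ρ μ (cplM ρ q P p) where
  nonneg n w v := by
    cases n with
    | zero => exact zero_le_one
    | succ n => exact cplS_nonneg q h n w v
  sum_right n w := by
    cases n with
    | zero =>
      simp [cplM, Set.eq_univ_of_forall (s := blk 0 ⁻¹' {w})
        fun x => show blk 0 x ∈ ({w} : Set (Fin 0 → A)) from Subsingleton.elim _ _]
    | succ n => exact cplS_sum_right q h n w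
  sum_left n v := by
    cases n with
    | zero => simp [cplM, hM.blk_eq, chainW]
    | succ n => exact cplS_sum_left q h hM n v

omit h in
/-- The mean error of the conditional laws of `ρ` given `n + 1` letters. -/
def stepErr (ρ : Measure (ℤ → A)) (q : Measure A) (P : Matrix A A ℝ) (n : ℕ) : ℝ :=
  ∑ w : Fin (n + 1) → A, ρ.real (blk (n + 1) ⁻¹' {w}) *
    ∑ c, |cnd ρ q (n + 1) w c - P (w (Fin.last n)) c|

/-- The disagreements are controlled by the errors. -/
theorem cplS_cost_le {V : A → A → ℝ} {δ M : ℝ} (hM : 0 ≤ M)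
    (hV : ∀ a a', 0 ≤ V a a' ∧ V a a' ≤ M) (hV0 : ∀ a, V a a = 0)
    (hd : ∀ a a', a ≠ a' → ∑ c, ∑ c', P a c * P a' c' * V c c' + δ ≤ V a a') (n : ℕ) :
    δ * ∑ w, ∑ v, cplS ρ q P p n w v * disagree w v ≤
      M + M * ∑ i ∈ Finset.range (n + 1), stepErr ρ q P i := by
  set G : ℕ → ℝ := fun n => ∑ w, ∑ v, cplS ρ q P p n w v *
    (δ * disagree (Fin.init w) (Fin.init v) + V (w (Fin.last n)) (v (Fin.last n)))
  set G' : ℕ → ℝ := fun n => ∑ w, ∑ v, cplS ρ q P p n w v * (δ * disagree w v +
    ∑ c, ∑ c', stepC P (cnd ρ q (n + 1) w) (w (Fin.last n)) (v (Fin.last n)) c c' * V c c')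
  have hG' : ∀ n, G' n ≤ G n + M * stepErr ρ q P n := fun n => by
    have e : M * stepErr ρ q P n = ∑ w, ∑ v, cplS ρ q P p n w v *
        (M * ∑ c, |cnd ρ q (n + 1) w c - P (w (Fin.last n)) c|) := by
      rw [stepErr, Finset.mul_sum]
      refine Finset.sum_congr rfl fun w _ => ?_
      rw [← Finset.sum_mul, cplS_sum_right q h]
      ring
    simp only [G, G', e, ← Finset.sum_add_distrib, ← mul_add]
    refine Finset.sum_le_sum fun w _ => Finset.sum_le_sum fun v _ =>
      mul_le_mul_of_nonneg_left ?_ (cplS_nonneg q h n w v)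
    have hdis : disagree w v = disagree (Fin.init w) (Fin.init v) +
        if w (Fin.last n) ≠ v (Fin.last n) then 1 else 0 := by
      simp only [disagree, Fin.sum_univ_castSucc, Fin.init]
      congr!
    have := stepC_drift h (cnd_nonneg ρ q (n + 1) w) (sum_cnd ρ q (n + 1) w) hM hV hV0 hd
      (w (Fin.last n)) (v (Fin.last n))
    rw [hdis, mul_add]
    linarith
  have hsucc : ∀ n, G (n + 1) = G' n := fun n => by
    simp only [G, G']
    rw [← (Fin.snocEquiv fun _ => A).sum_comp, Fintype.sum_prod_type_right]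
    refine Finset.sum_congr rfl fun w _ => ?_
    rw [Finset.sum_congr rfl fun c _ => by
      rw [← (Fin.snocEquiv fun _ => A).sum_comp, Fintype.sum_prod_type_right], Finset.sum_comm]
    refine Finset.sum_congr rfl fun v _ => ?_
    simp only [Fin.snocEquiv, Equiv.coe_fn_mk, cplS, Fin.init_snoc, Fin.snoc_last, mul_add,
      Finset.sum_add_distrib, Finset.mul_sum]
    congr 1
    · simp only [← Finset.sum_mul, ← Finset.mul_sum,
        stepC_sum_right h (sum_cnd ρ q (n + 1) _), sum_cnd, mul_one]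
    · exact Finset.sum_congr rfl fun c _ => Finset.sum_congr rfl fun c' _ => by ring
  have htot : ∀ n, ∑ w, ∑ v, cplS ρ q P p n w v = 1 := fun n => by
    simp only [cplS_sum_right q h]
    exact sum_blk ρ (n + 1)
  have hG : ∀ n, G n ≤ M + M * ∑ i ∈ Finset.range n, stepErr ρ q P i := fun n => by
    induction n with
    | zero =>
      rw [Finset.sum_range_zero, mul_zero, add_zero]
      refine le_of_le_of_eq ?_ (show (∑ w, ∑ v, cplS ρ q P p 0 w v) * M = M by
        rw [htot, one_mul])
      simp only [G, Finset.sum_mul]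
      refine Finset.sum_le_sum fun w _ => Finset.sum_le_sum fun v _ =>
        mul_le_mul_of_nonneg_left ?_ (cplS_nonneg q h 0 w v)
      simpa [disagree] using (hV _ _).2
    | succ n ih =>
      rw [hsucc, Finset.sum_range_succ, mul_add]
      linarith [hG' n]
  have hlow : δ * ∑ w, ∑ v, cplS ρ q P p n w v * disagree w v ≤ G' n := by
    simp only [G', Finset.mul_sum]
    refine Finset.sum_le_sum fun w _ => Finset.sum_le_sum fun v _ => ?_
    rw [mul_left_comm]
    refine mul_le_mul_of_nonneg_left (le_add_of_nonneg_right ?_) (cplS_nonneg q h n w v)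
    exact Finset.sum_nonneg fun c _ => Finset.sum_nonneg fun c' _ => mul_nonneg
      (stepC_nonneg h (cnd_nonneg ρ q (n + 1) w) (sum_cnd ρ q (n + 1) w) _ _ c c') (hV c c').1
  rw [← hsucc] at hlow
  exact hlow.trans (hG (n + 1))

omit h [DecidableEq A] in
/-- The law of a letter, and of the next one given it. -/
theorem sum_abs_two_le (hρ : MeasurePreserving (shift A) ρ ρ) (n : ℕ) {s : ℝ}
    (hs : 0 < s) : stepErr ρ q P n ≤
      (∑ a, ∑ c, |ρ.real (blk 2 ⁻¹' {Fin.snoc (fun _ => a) c}) -
        ρ.real (blk 1 ⁻¹' {fun _ => a}) * P a c|) + Fintype.card A * s +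
      ((entropy ρ (blk 2) - entropy ρ (blk 1)) -
        (entropy ρ (blk (n + 2)) - entropy ρ (blk (n + 1)))) / s := by
  set W : (Fin (n + 1) → A) → ℝ := fun w => ρ.real (blk (n + 1) ⁻¹' {w})
  set Q : A → A → ℝ := fun a => cnd ρ q 1 fun _ => a
  have hWsum : ∑ w, W w = 1 := sum_blk ρ (n + 1)
  have h0 : ∀ w c, 0 < W w → Q (w (Fin.last n)) c = 0 → cnd ρ q (n + 1) w c = 0 :=
      fun w c hw hQ => by
    have h1 : ρ.real (blk 2 ⁻¹' {Fin.snoc (fun _ => w (Fin.last n)) c}) = 0 := by
      rw [blk_snoc_eq ρ q]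
      exact mul_eq_zero_of_right _ hQ
    have h2 : ρ.real (blk (n + 2) ⁻¹' {Fin.snoc w c}) = 0 := by
      refine le_antisymm ?_ measureReal_nonneg
      rw [← h1, ← measureReal_tr hρ (n : ℤ) (measurable_blk 2 (measurableSet_singleton _))]
      refine measureReal_mono fun x hx => ?_
      funext j
      refine Fin.lastCases ?_ (fun i => ?_) j
      · have := congrFun hx (Fin.last (n + 1))
        rw [Fin.snoc_last] at this ⊢
        rw [← this]
        simp [blk, tr, add_comm]
      · have := congrFun hx (Fin.last n).castSucc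
        rw [Fin.snoc_castSucc] at this ⊢
        rw [← this]
        simp [blk, tr, Fin.fin_one_eq_zero i]
    rw [blk_snoc_eq ρ q] at h2
    exact (mul_eq_zero.1 h2).resolve_left hw.ne'
  have hmain := sum_abs_sub_le W (cnd ρ q (n + 1)) (fun w => Q (w (Fin.last n)))
    (fun _ => measureReal_nonneg) hWsum (cnd_nonneg ρ q (n + 1)) (sum_cnd ρ q (n + 1))
    (fun _ => cnd_nonneg ρ q 1 _) (fun _ => sum_cnd ρ q 1 _) h0 hs
  have hcross : ∀ m : ℕ, ∑ w : Fin (m + 1) → A, ρ.real (blk (m + 1) ⁻¹' {w}) *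
      ∑ c, -cnd ρ q (m + 1) w c * log (Q (w (Fin.last m)) c) =
      ∑ t : Fin 2 → A, ρ.real (blk 2 ⁻¹' {t}) * -log (Q (t 0) (t 1)) := fun m => by
    rw [← sum_blk_sub hρ (n := m + 2) (k := 2) m le_rfl fun t => -log (Q (t 0) (t 1)),
      ← (Fin.snocEquiv fun _ : Fin (m + 2) => A).sum_comp, Fintype.sum_prod_type_right]
    refine Finset.sum_congr rfl fun w _ => ?_
    rw [Finset.mul_sum]
    refine Finset.sum_congr rfl fun c _ => ?_
    simp only [Fin.snocEquiv, Equiv.coe_fn_mk]
    rw [blk_snoc_eq ρ q]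
    have e1 : (Fin.snoc w c : Fin (m + 2) → A) ⟨m + 1, by omega⟩ = c :=
      Fin.snoc_last (α := fun _ => A) c w
    have e0 : (Fin.snoc w c : Fin (m + 2) → A) ⟨m, by omega⟩ = w (Fin.last m) :=
      Fin.snoc_castSucc (α := fun _ => A) c w (Fin.last m)
    simp only [Fin.val_zero, Fin.val_one, Nat.add_zero, e0, e1]
    ring
  have hself : ∑ w : Fin 1 → A, ρ.real (blk 1 ⁻¹' {w}) *
      ∑ c, -cnd ρ q 1 w c * log (Q (w (Fin.last 0)) c) =
      entropy ρ (blk 2) - entropy ρ (blk 1) := by
    rw [entropy_blk_succ ρ q 1, add_sub_cancel_left]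
    refine Finset.sum_congr rfl fun w _ => congrArg _ (Finset.sum_congr rfl fun c _ => ?_)
    rw [show Q (w (Fin.last 0)) = cnd ρ q 1 w from congrArg (cnd ρ q 1)
      (funext fun j => congrArg w (Subsingleton.elim _ _)), negMulLog]
  rw [hcross n, ← hcross 0, hself] at hmain
  rw [entropy_blk_succ ρ q (n + 1), add_sub_cancel_left]
  have hL : ∑ w, W w * ∑ c, |Q (w (Fin.last n)) c - P (w (Fin.last n)) c| =
      ∑ a, ∑ c, |ρ.real (blk 2 ⁻¹' {Fin.snoc (fun _ => a) c}) -
        ρ.real (blk 1 ⁻¹' {fun _ => a}) * P a c| := by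
    have e := sum_blk_sub hρ (n := n + 1) (k := 1) n le_rfl
      fun t => ∑ c, |Q (t 0) c - P (t 0) c|
    refine (Eq.trans (Finset.sum_congr rfl fun w _ => rfl) e).trans ?_
    rw [← (Equiv.funUnique (Fin 1) A).symm.sum_comp]
    refine Finset.sum_congr rfl fun a _ => ?_
    rw [Finset.mul_sum]
    refine Finset.sum_congr rfl fun c _ => ?_
    rw [blk_snoc_eq ρ q, ← mul_sub, abs_mul, abs_of_nonneg measureReal_nonneg]
    rfl
  calc stepErr ρ q P n
      ≤ ∑ w, W w * (∑ c, |cnd ρ q (n + 1) w c - Q (w (Fin.last n)) c| +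
          ∑ c, |Q (w (Fin.last n)) c - P (w (Fin.last n)) c|) := by
        refine Finset.sum_le_sum fun w _ => mul_le_mul_of_nonneg_left ?_ measureReal_nonneg
        rw [← Finset.sum_add_distrib]
        exact Finset.sum_le_sum fun c _ => abs_sub_le _ _ _
    _ = (∑ w, W w * ∑ c, |cnd ρ q (n + 1) w c - Q (w (Fin.last n)) c|) +
          ∑ w, W w * ∑ c, |Q (w (Fin.last n)) c - P (w (Fin.last n)) c| := by
        simp only [mul_add, Finset.sum_add_distrib]
    _ ≤ _ := by
        rw [hL]
        linarith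

end Bound

/-- **A mixing Markov shift is finitely determined.** -/
theorem IsMarkov.finiteDet (hM : IsMarkov P p μ) (h : IsChain P p) {N : ℕ}
    (hN : ∀ a b, 0 < (P ^ N) a b) : FiniteDet μ := by
  have := hM.isProb
  intro ε hε
  obtain ⟨a₀⟩ := h.nonempty
  obtain ⟨V, δ, M, hδ, hM0, hV, hV0, hd⟩ := h.exists_drift hN
  set R := M / δ + 1
  have hR : 0 < R := by positivity
  set K : ℝ := (Fintype.card A : ℝ)
  have hK : 0 ≤ K := Nat.cast_nonneg _
  set s := ε / (3 * R * (K + 1))
  have hs : 0 < s := by positivity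
  set H := ∑ a, p a * ∑ b, negMulLog (P a b) with hH
  let F : ((Fin 2 → A) → ℝ) → ℝ := fun x =>
    (∑ a, ∑ c, |x (Fin.snoc (fun _ => a) c) - (∑ c', x (Fin.snoc (fun _ => a) c')) * P a c|) +
      (∑ t, negMulLog (x t) - ∑ a, negMulLog (∑ c', x (Fin.snoc (fun _ => a) c')) - H) / s
  have hFc : Continuous F := by fun_prop
  have hsum1 : ∀ (m : Measure (ℤ → A)) [IsProbabilityMeasure m] (a : A),
      ∑ c', m.real (blk 2 ⁻¹' {Fin.snoc (fun _ : Fin 1 => a) c'}) =
        m.real (blk 1 ⁻¹' {fun _ => a}) := fun m _ a => sum_blk_snoc m 1 fun _ => a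
  have hFm : ∀ (m : Measure (ℤ → A)) [IsProbabilityMeasure m],
      F (fun t => m.real (blk 2 ⁻¹' {t})) =
        (∑ a, ∑ c, |m.real (blk 2 ⁻¹' {Fin.snoc (fun _ => a) c}) -
          m.real (blk 1 ⁻¹' {fun _ => a}) * P a c|) +
        (entropy m (blk 2) - entropy m (blk 1) - H) / s := fun m _ => by
    simp only [F, hsum1 m]
    congr 4
    rw [entropy, ← (Equiv.funUnique (Fin 1) A).symm.sum_comp]
    rfl
  have hμ0 : F (fun t => μ.real (blk 2 ⁻¹' {t})) = 0 := by
    rw [hFm μ]
    have e1 : ∀ a c, μ.real (blk 2 ⁻¹' {Fin.snoc (fun _ => a) c}) -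
        μ.real (blk 1 ⁻¹' {fun _ => a}) * P a c = 0 := fun a c => by
      rw [hM.blk_eq, hM.blk_eq, chainW_snoc, sub_self]
    have e2 : entropy μ (blk 2) - entropy μ (blk 1) = H := by
      rw [entropy_blk_succ μ (Measure.dirac a₀) 1, add_sub_cancel_left,
        ← (Equiv.funUnique (Fin 1) A).symm.sum_comp, hH]
      refine Finset.sum_congr rfl fun a _ => ?_
      show μ.real (blk 1 ⁻¹' {fun _ => a}) * _ = _
      rw [hM.blk_eq]
      simp only [chainW, Finset.univ_eq_empty, Finset.prod_empty, mul_one]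
      rcases eq_or_ne (p a) 0 with h0 | h0
      · rw [h0, zero_mul, zero_mul]
      refine congrArg _ (Finset.sum_congr rfl fun b _ => congrArg _ ?_)
      show cnd μ (Measure.dirac a₀) 1 (fun _ => a) b = _
      rw [cnd, if_neg (by rw [hM.blk_eq]; simpa [chainW] using h0), hM.blk_eq, hM.blk_eq,
        chainW_snoc, mul_div_cancel_left₀ _ (by simpa [chainW] using h0)]
    simp [e1, e2]
  obtain ⟨e, he, hclose⟩ := Metric.continuous_iff.1 hFc (fun t => μ.real (blk 2 ⁻¹' {t}))
    (ε / (3 * R)) (by positivity)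
  refine ⟨2, min (e / 2) (s * (ε / (3 * R))), by positivity, fun ρ _ hρ hblk hr => ?_⟩
  rw [hM.rate_eq h, ← hH] at hr
  have hF : F (fun t => ρ.real (blk 2 ⁻¹' {t})) ≤ ε / (3 * R) := by
    have := hclose (fun t => ρ.real (blk 2 ⁻¹' {t})) ((dist_pi_lt_iff he).2 fun t => by
      rw [Real.dist_eq]
      linarith [hblk t, min_le_left (e / 2) (s * (ε / (3 * R)))])
    rw [Real.dist_eq, hμ0, sub_zero] at this
    exact (le_abs_self _).trans this.le
  rw [hFm ρ] at hF
  set L := ∑ a, ∑ c, |ρ.real (blk 2 ⁻¹' {Fin.snoc (fun _ => a) c}) -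
    ρ.real (blk 1 ⁻¹' {fun _ => a}) * P a c|
  have hp : Couples (ρ.map (code fun x : ℤ → A => x 0)) μ (cplM ρ (Measure.dirac a₀) P p) := by
    rw [show code (fun x : ℤ → A => x 0) = id by funext x i; simp [code, tr], Measure.map_id]
    exact couples_cplM _ h hM
  have hh1 : 0 ≤ entropy ρ (blk 1) / s := div_nonneg (FA.KolmogorovSinai.entropy_nonneg _) hs.le
  obtain ⟨J, hJ, hD⟩ := exists_joining_cost (measurable_pi_apply (0 : ℤ)) hp hρ hM.mp (c := ε)
    (K := R * (1 + entropy ρ (blk 1) / s)) fun n => by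
      rcases n with _ | n
      · simp [disagree]
        positivity
      set E := ∑ i ∈ Finset.range (n + 1), stepErr ρ (Measure.dirac a₀) P i
      have h1 := cplS_cost_le (ρ := ρ) (Measure.dirac a₀) h hM0 hV hV0 hd n
      have h2 : E ≤ ((n : ℝ) + 1) * (L + K * s +
            (entropy ρ (blk 2) - entropy ρ (blk 1) - rate ρ (shift A) fun x => x 0) / s) +
          entropy ρ (blk 1) / s := by
        refine (Finset.sum_le_sum fun i _ =>
          sum_abs_two_le (Measure.dirac a₀) hρ i hs).trans ?_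
        simp only [Finset.sum_add_distrib, Finset.sum_const, Finset.card_range, nsmul_eq_mul,
          ← Finset.sum_div, Finset.sum_sub_distrib,
          Finset.sum_range_sub fun i => entropy ρ (blk (i + 1))]
        have h3 := rate_le_entropy_div ρ hρ (n := n + 1 + 1) (by omega)
        rw [le_div_iff₀ (Nat.cast_pos.2 (by omega))] at h3
        have h4 : 0 ≤ rate ρ (shift A) fun x => x 0 :=
          FA.KolmogorovSinai.rate_nonneg hρ (measurable_pi_apply 0)
        push_cast at h3 ⊢
        have h7 : ((n : ℝ) + 1) * (entropy ρ (blk 2) - entropy ρ (blk 1)) -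
            (entropy ρ (blk (n + 1 + 1)) - entropy ρ (blk 1)) ≤ ((n : ℝ) + 1) *
              (entropy ρ (blk 2) - entropy ρ (blk 1) - rate ρ (shift A) fun x => x 0) +
              entropy ρ (blk 1) := by
          nlinarith
        have h8 := div_le_div_of_nonneg_right h7 hs.le
        rw [add_div, mul_div_assoc ((n : ℝ) + 1)] at h8
        rw [mul_add ((n : ℝ) + 1), mul_add ((n : ℝ) + 1)]
        linarith
      have h5 : (entropy ρ (blk 2) - entropy ρ (blk 1) - rate ρ (shift A) fun x => x 0) / s ≤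
          (entropy ρ (blk 2) - entropy ρ (blk 1) - H) / s + ε / (3 * R) := by
        rw [div_add' _ _ _ hs.ne']
        gcongr
        linarith [min_le_right (e / 2) (s * (ε / (3 * R)))]
      have hKs : K * s ≤ ε / (3 * R) := by
        refine (mul_le_mul_of_nonneg_right (le_add_of_nonneg_right zero_le_one) hs.le).trans_eq ?_
        simp only [s]
        field_simp
      have h6 : L + K * s +
          (entropy ρ (blk 2) - entropy ρ (blk 1) - rate ρ (shift A) fun x => x 0) / s ≤ ε / R := by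
        have e3 : ε / R = 3 * (ε / (3 * R)) := by field_simp
        linarith
      have h7 : E ≤ ((n : ℝ) + 1) * (ε / R) + entropy ρ (blk 1) / s :=
        h2.trans (by gcongr)
      set C := ∑ w, ∑ v, cplS ρ (Measure.dirac a₀) P p n w v * disagree w v
      have hE : 0 ≤ E := Finset.sum_nonneg fun i _ => Finset.sum_nonneg fun w _ =>
        mul_nonneg measureReal_nonneg (Finset.sum_nonneg fun c _ => abs_nonneg _)
      have h8 : C ≤ R * (1 + E) := by
        have e4 : δ * (R * (1 + E)) = M + M * E + δ * (1 + E) := by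
          simp only [R]
          field_simp
        refine le_of_mul_le_mul_left ?_ hδ
        nlinarith
      show C ≤ _
      have h9 : R * (ε / R) = ε := mul_div_cancel₀ _ hR.ne'
      push_cast
      nlinarith [mul_le_mul_of_nonneg_left h7 hR.le]
  exact ⟨J, hJ, hD⟩

end FA.MarkovShift

end
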